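import Fermat.Statements.S02

set_option autoImplicit false
open FreyPackage

namespace Fermat.Agent.S02

theorem cast4_eq_three (a : ℤ) (h : a % 4 = 3) : ((a : ℤ) : ZMod 4) = 3 := by
  have : a = 4 * (a / 4) + 3 := by omega
  rw [this]
  push_cast
  have h4 : (4 : ZMod 4) = 0 := rfl
  rw [h4]; ring

theorem cast2_eq_zero (b : ℤ) (h : (2 : ℤ) ∣ b) : ((b : ℤ) : ZMod 2) = 0 :=
  (ZMod.intCast_zmod_eq_zero_iff_dvd b 2).2 (by exact_mod_cast h)

theorem core_mod3 (a b c : ℤ) (ha : a ≠ 0) (hb : b ≠ 0) (hc : c ≠ 0) (p : ℕ) (pp : p.Prime)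
    (hp5 : 5 ≤ p) (H : a ^ p + b ^ p = c ^ p) (hab : gcd a b = 1) (hb2 : (2 : ℤ) ∣ b)
    (h4 : a % 4 = 3) : Nonempty FreyPackage :=
  ⟨⟨a, b, c, ha, hb, hc, p, pp, hp5, H, hab, cast4_eq_three a h4, cast2_eq_zero b hb2⟩⟩

theorem core (a b c : ℤ) (ha : a ≠ 0) (hb : b ≠ 0) (hc : c ≠ 0) (p : ℕ) (pp : p.Prime)
    (hp5 : 5 ≤ p) (H : a ^ p + b ^ p = c ^ p) (hab : gcd a b = 1) (hb2 : (2 : ℤ) ∣ b) :
    Nonempty FreyPackage := by
  have hodd : Odd p := pp.odd_of_ne_two (by omega)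
  have ha_odd : ¬ (2 : ℤ) ∣ a := by
    intro h2a
    have h2 : (2 : ℤ) ∣ gcd a b := dvd_gcd h2a hb2
    rw [hab] at h2
    norm_num at h2
  have h4 : a % 4 = 1 ∨ a % 4 = 3 := by omega
  rcases h4 with h4 | h4
  · refine core_mod3 (-a) (-b) (-c) (neg_ne_zero.2 ha) (neg_ne_zero.2 hb) (neg_ne_zero.2 hc) p pp hp5
      ?_ ?_ ?_ ?_
    · rw [hodd.neg_pow, hodd.neg_pow, hodd.neg_pow, ← H]; ring
    · rw [gcd_neg, neg_gcd]; exact hab
    · exact (dvd_neg).2 hb2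
    · omega
  · exact core_mod3 a b c ha hb hc p pp hp5 H hab hb2 h4

theorem coprime_case (a b c : ℤ) (ha : a ≠ 0) (hb : b ≠ 0) (hc : c ≠ 0) (p : ℕ) (pp : p.Prime)
    (hp5 : 5 ≤ p) (H : a ^ p + b ^ p = c ^ p) (hab : gcd a b = 1) :
    Nonempty FreyPackage := by
  have hodd : Odd p := pp.odd_of_ne_two (by omega)
  have hppos : 0 < p := by omega
  by_cases hb2 : (2 : ℤ) ∣ b
  · exact core a b c ha hb hc p pp hp5 H hab hb2
  · by_cases ha2 : (2 : ℤ) ∣ a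
    · refine core b a c hb ha hc p pp hp5 ?_ ?_ ha2
      · rw [add_comm]; exact H
      · rw [gcd_comm]; exact hab
    · -- both odd, so c is even
      have hc2 : (2 : ℤ) ∣ c := by
        have hao : Odd a := Int.not_even_iff_odd.1 (fun h => ha2 (even_iff_two_dvd.1 h))
        have hbo : Odd b := Int.not_even_iff_odd.1 (fun h => hb2 (even_iff_two_dvd.1 h))
        have hcp : Even (c ^ p) := by
          rw [← H]; exact (hao.pow).add_odd (hbo.pow)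
        have : Even c := (Int.even_pow.1 hcp).1
        exact even_iff_two_dvd.1 this
      refine core a (-c) (-b) ha (neg_ne_zero.2 hc) (neg_ne_zero.2 hb) p pp hp5 ?_ ?_ ?_
      · rw [hodd.neg_pow, hodd.neg_pow, ← H]; ring
      · rw [gcd_neg, ← gcdab_eq_gcdac hppos H]; exact hab
      · exact (dvd_neg).2 hc2

end Fermat.Agent.S02
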